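/-
S33 / Layer II_p (owner helper73): instantiation of `Cech.Data` in the abstract framework of KL-A
(`Fermat.Agent.S18`: `IsUnif`, `IsChart`, `IsCover`, `RootData`), i.e. ONE vertical valuation,
good reduction, exponent `m = p` = the residue characteristic.   TASK CECH-9.
-/
import Fermat.Agent.S33.Cech.Defs
import Fermat.Agent.S18.Abs.InjFinal

set_option autoImplicit false

namespace Fermat.Agent.S33.Cech

open Fermat.Agent.S18 Fermat.Agent.S18.Abs

variable {F : Type*} [Field F] {Ow : ValuationSubring F} {ϖ : F}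

/-- The extra hypotheses at the residue characteristic `p`: `p = η ϖ ^ e`, the constants `A₀` are
saturated with perfect residue field, the functions on the special fibre which are regular on both
charts are constant. -/
structure IsGoodP (p : ℕ) (Ow : ValuationSubring F) (ϖ : F) (A₀ B₁ B₂ : Subring F) (η : F)
    (e : ℕ) : Prop where
  η_mem : η ∈ A₀
  η_inv : η⁻¹ ∈ A₀
  η_ne : η ≠ 0
  e_pos : 0 < e
  p_eq : (p : F) = η * ϖ ^ e
  perfect : ∀ c ∈ A₀, ∃ d ∈ A₀, (d ^ p - c) / ϖ ∈ Ow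
  satA : ∀ z ∈ Ow, ϖ * z ∈ A₀ → z ∈ A₀
  h0 : ∀ b1 ∈ B₁, ∀ b2 ∈ B₂, (b1 - b2) / ϖ ∈ Ow → ∃ c ∈ A₀, (b1 - c) / ϖ ∈ Ow

/-- conversion between the two ways of writing divisibility in `Ow`. -/
theorem exists_mem_eq_mul_iff {a : F} (ha : a ≠ 0) (y : F) :
    (∃ t ∈ Ow.toSubring, y = a * t) ↔ y / a ∈ Ow := by
  constructor
  · rintro ⟨t, ht, rfl⟩
    have : a * t / a = t := by field_simp
    rw [this]
    exact ht
  · intro h
    exact ⟨y / a, h, by field_simp⟩

/-- CECH-9.  The data of Layer II_p attached to a good cover.  All fields follow from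
`IsUnif` (`GaussHyp` via `IsUnif.gaussHyp`; `one_add`: `GaussHyp.unit_of_sub_one`; `frob`: `Ow / ϖ`
is a field: if `z / ϖ ∉ Ow` then `z⁻¹ ∈ Ow` (`IsUnif.div_mem`) and `ϖ⁻¹ = (z⁻¹) ^ p * t ∈ Ow`),
`IsChart.chartHyp`, `awaySubring_chartHyp`, `le_awaySubring₁`, `le_awaySubring₂`, `IsChart.norm`,
`IsGoodP`. -/
theorem exists_goodData {p : ℕ} (hp : p.Prime) (hϖ : IsUnif Ow ϖ) {A₀ B₁ B₂ : Subring F} {x : F}
    (hϖA : ϖ ∈ A₀) (hc : IsCover A₀ x B₁ B₂) (h₁ : IsChart Ow ϖ B₁) (h₂ : IsChart Ow ϖ B₂)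
    {η : F} {e : ℕ} (hP : IsGoodP p Ow ϖ A₀ B₁ B₂ η e) :
    ∃ D : Data p F, D.O = Ow.toSubring ∧ D.A = A₀ ∧ D.B1 = B₁ ∧ D.B2 = B₂ ∧
      D.B12 = awaySubring B₁ x hc.x_mem ∧ D.π = ϖ ∧ D.η = η ∧ D.e = e := by
  have hϖ0 : ϖ ≠ 0 := hϖ.ne_zero
  have hc₁ := h₁.chartHyp hϖ p hp.pos
  have hc₂ := h₂.chartHyp hϖ p hp.pos
  have hc₁₂ := awaySubring_chartHyp hϖ hc h₁ h₂ p hp.pos
  exact ⟨
    { O := Ow.toSubring
      A := A₀
      B1 := B₁
      B2 := B₂
      B12 := awaySubring B₁ x hc.x_mem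
      π := ϖ
      η := η
      e := e
      A_le1 := hc.le₁
      A_le2 := hc.le₂
      B1_le := le_awaySubring₁ _ _ _
      B2_le := le_awaySubring₂ hc
      B12_le := fun y hy => hc₁₂.le_O y hy
      π_mem := hϖA
      π_ne := hϖ0
      π_inv := hϖ.inv_notMem
      η_mem := hP.η_mem
      η_inv := hP.η_inv
      η_ne := hP.η_ne
      e_pos := hP.e_pos
      p_eq := hP.p_eq
      one_add := by
        intro z hz
        refine (hϖ.mem_of_sub_one (h := 1 + ϖ * z) ?_).2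
        have : (1 + ϖ * z - 1) / ϖ = z := by field_simp; ring
        rw [this]
        exact hz
      frob := by
        rintro z hz ⟨t, ht, hzt⟩
        rw [exists_mem_eq_mul_iff hϖ0]
        by_contra hcon
        have hzinv : z⁻¹ ∈ Ow := by
          by_contra h
          exact hcon (hϖ.div_mem hz h)
        have hz0 : z ≠ 0 := by
          rintro rfl
          apply hcon
          rw [zero_div]
          exact Ow.zero_mem
        apply hϖ.inv_notMem
        have : ϖ⁻¹ = z⁻¹ ^ p * t := by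
          have h1 : t = z ^ p / ϖ := by rw [hzt]; field_simp
          rw [h1, inv_pow]
          field_simp
        rw [this]
        exact Ow.mul_mem _ _ (Ow.pow_mem hzinv p) ht
      rootO := fun z hz => (IsUnif.pow_mem_iff Ow hp.ne_zero).mp hz
      perfect := by
        intro c hcA
        obtain ⟨d, hd, h⟩ := hP.perfect c hcA
        exact ⟨d, hd, (exists_mem_eq_mul_iff hϖ0 _).mpr h⟩
      satA := hP.satA
      sat1 := hc₁.qep
      sat2 := hc₂.qep
      sat12 := hc₁₂.qep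
      root1 := hc₁.root
      root2 := hc₂.root
      root12 := hc₁₂.root
      pr1 := by
        intro c hcO b hb h
        obtain ⟨b', hb', h'⟩ := h₁.norm hϖ hp.pos c hcO b hb ((exists_mem_eq_mul_iff hϖ0 _).mp h)
        exact ⟨b', hb', (exists_mem_eq_mul_iff hϖ0 _).mpr h'⟩
      pr2 := by
        intro c hcO b hb h
        obtain ⟨b', hb', h'⟩ := h₂.norm hϖ hp.pos c hcO b hb ((exists_mem_eq_mul_iff hϖ0 _).mp h)
        exact ⟨b', hb', (exists_mem_eq_mul_iff hϖ0 _).mpr h'⟩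
      h0 := by
        intro b1 hb1 b2 hb2 h
        obtain ⟨c, hcA, h'⟩ := hP.h0 b1 hb1 b2 hb2 ((exists_mem_eq_mul_iff hϖ0 _).mp h)
        exact ⟨c, hcA, (exists_mem_eq_mul_iff hϖ0 _).mpr h'⟩ },
    rfl, rfl, rfl, rfl, rfl, rfl, rfl, rfl⟩

theorem dvd_iff {p : ℕ} {D : Data p F} (hO : D.O = Ow.toSubring) (hπ : D.π = ϖ) (M : ℕ) (y : F) :
    D.Dvd M y ↔ y / ϖ ^ M ∈ Ow := by
  have hϖ0 : ϖ ≠ 0 := hπ ▸ D.π_ne
  unfold Data.Dvd
  rw [hO, hπ]
  exact exists_mem_eq_mul_iff (pow_ne_zero M hϖ0) y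

end Fermat.Agent.S33.Cech
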