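/-
S33 / Layer II_p: the special fibre of a good chart is closed under Artin-Schreier roots.
TASK CECH-11.
-/
import Fermat.Agent.S18.Abs.InjFinal

set_option autoImplicit false

namespace Fermat.Agent.S33.Cech

open Fermat.Agent.S18 Fermat.Agent.S18.Abs

/-- in an integrally closed domain `x ^ p + e * z ^ (p - 1) * x = y * z ^ p` with `z ≠ 0`, `1 < p`
forces `z ∣ x`. -/
theorem exists_eq_mul_of_as_eq {R : Type*} [CommRing R] [IsDomain R] [IsIntegrallyClosed R]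
    {p : ℕ} (hp : 1 < p) {x y z e : R} (hz : z ≠ 0)
    (h : x ^ p + e * z ^ (p - 1) * x = y * z ^ p) : ∃ w : R, x = w * z := by
  have hzK : algebraMap R (FractionRing R) z ≠ 0 := by simpa using hz
  set a := algebraMap R (FractionRing R) with ha
  have hint : IsIntegral R (a x / a z) := by
    have hmonic : (Polynomial.X ^ p + (Polynomial.C e * Polynomial.X - Polynomial.C y) :
        Polynomial R).Monic := by
      apply Polynomial.monic_X_pow_add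
      refine lt_of_le_of_lt (Polynomial.degree_sub_le _ _) ?_
      rw [max_lt_iff]
      constructor
      · refine lt_of_le_of_lt (Polynomial.degree_C_mul_X_le e) ?_
        exact_mod_cast hp
      · refine lt_of_le_of_lt Polynomial.degree_C_le ?_
        exact_mod_cast (by omega : 0 < p)
    refine ⟨_, hmonic, ?_⟩
    rw [Polynomial.eval₂_add, Polynomial.eval₂_sub, Polynomial.eval₂_pow, Polynomial.eval₂_mul,
      Polynomial.eval₂_X, Polynomial.eval₂_C, Polynomial.eval₂_C]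
    have h' : a x ^ p + a e * a z ^ (p - 1) * a x = a y * a z ^ p := by
      rw [← map_pow, ← map_pow, ← map_mul, ← map_mul, ← map_add, h, map_mul, map_pow]
    have hpp : a z ^ p = a z ^ (p - 1) * a z := by
      rw [← pow_succ]; congr 1; omega
    have hzp : a z ^ (p - 1) ≠ 0 := pow_ne_zero _ hzK
    rw [div_pow, hpp]
    rw [hpp] at h'
    field_simp
    linear_combination h'
  obtain ⟨w, hw⟩ := IsIntegrallyClosed.isIntegral_iff.1 hint
  refine ⟨w, ?_⟩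
  apply IsFractionRing.injective R (FractionRing R)
  rw [map_mul, hw, div_mul_cancel₀ _ hzK]

variable {F : Type*} [Field F] {Ow : ValuationSubring F} {ϖ : F}

/-- CECH-11.  `B / ϖ` is integrally closed in `Ow / ϖ`: Artin-Schreier form
(same proof as `IsChart.norm`, with the polynomial `X ^ p + η X - b`; clear the denominator `b₂`:
`(b₂ c) ^ p + η b₂ ^ (p-1) (b₂ c) - b b₂ ^ p ≡ 0`).  NB: `1 < p` is needed (for `p = 1`, `η = -1`,
`b = 0` the hypothesis is empty). -/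
theorem as_closed {p : ℕ} (hp : 1 < p) {B : Subring F} (hϖ : IsUnif Ow ϖ) (hB : IsChart Ow ϖ B)
    {η : F} (hη : η ∈ B) :
    ∀ c ∈ Ow, ∀ b ∈ B, (c ^ p + η * c - b) / ϖ ∈ Ow → ∃ b' ∈ B, (c - b') / ϖ ∈ Ow := by
  intro c hc b hb hcb
  have hded := hB.ded ⟨ϖ, hB.unif_mem⟩ rfl
  have hϖ0 : ϖ ≠ 0 := by
    rintro rfl
    apply hϖ.inv_notMem
    rw [inv_zero]
    exact Ow.zero_mem
  obtain ⟨b₂, hb₂, hb₂0, hb₂inv, hb₁⟩ := hB.loc c hc
  set π : B := ⟨ϖ, hB.unif_mem⟩ with hπ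
  set mk := Ideal.Quotient.mk (Ideal.span {π}) with hmk
  have hpp : b₂ ^ p = b₂ ^ (p - 1) * b₂ := by
    rw [← pow_succ]; congr 1; omega
  -- the key congruence
  have he : (b₂ * c) ^ p + η * b₂ ^ (p - 1) * (b₂ * c) - b * b₂ ^ p ∈ B :=
    B.sub_mem (B.add_mem (B.pow_mem hb₁ p) (B.mul_mem (B.mul_mem hη (B.pow_mem hb₂ _)) hb₁))
      (B.mul_mem hb (B.pow_mem hb₂ p))
  have he' : ((b₂ * c) ^ p + η * b₂ ^ (p - 1) * (b₂ * c) - b * b₂ ^ p) / ϖ ∈ B := by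
    apply hB.qep _ he
    have : ((b₂ * c) ^ p + η * b₂ ^ (p - 1) * (b₂ * c) - b * b₂ ^ p) / ϖ
        = b₂ ^ p * ((c ^ p + η * c - b) / ϖ) := by
      rw [mul_pow, hpp]; ring
    rw [this]
    exact Ow.mul_mem _ _ (Ow.pow_mem (hB.le _ hb₂) p) hcb
  have h1 : mk ⟨b₂ * c, hb₁⟩ ^ p + mk ⟨η, hη⟩ * mk ⟨b₂, hb₂⟩ ^ (p - 1) * mk ⟨b₂ * c, hb₁⟩
      = mk ⟨b, hb⟩ * mk ⟨b₂, hb₂⟩ ^ p := by
    rw [← map_pow, ← map_pow, ← map_pow, ← map_mul, ← map_mul, ← map_mul, ← map_add,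
      ← sub_eq_zero, ← map_sub, hmk, Ideal.Quotient.eq_zero_iff_mem, Ideal.mem_span_singleton']
    refine ⟨⟨_, he'⟩, Subtype.ext ?_⟩
    show ((b₂ * c) ^ p + η * b₂ ^ (p - 1) * (b₂ * c) - b * b₂ ^ p) / ϖ * ϖ
      = (b₂ * c) ^ p + η * b₂ ^ (p - 1) * (b₂ * c) - b * b₂ ^ p
    rw [div_mul_cancel₀ _ hϖ0]
  have h2 : mk ⟨b₂, hb₂⟩ ≠ 0 := by
    intro h0
    rw [hmk, Ideal.Quotient.eq_zero_iff_mem, Ideal.mem_span_singleton'] at h0
    obtain ⟨z, hz⟩ := h0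
    have hz' : (z : F) * ϖ = b₂ := congrArg Subtype.val hz
    apply hϖ.inv_notMem
    have : ϖ⁻¹ = z * b₂⁻¹ := by
      have hz0 : (z : F) ≠ 0 := by
        intro h
        rw [h, zero_mul] at hz'
        exact hb₂0 hz'.symm
      rw [← hz', mul_inv, mul_inv_cancel_left₀ hz0]
    rw [this]
    exact Ow.mul_mem _ _ (hB.le _ z.2) hb₂inv
  obtain ⟨w, hw⟩ := exists_eq_mul_of_as_eq hp h2 h1
  obtain ⟨b', rfl⟩ := Ideal.Quotient.mk_surjective w
  refine ⟨b', b'.2, ?_⟩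
  have h3 : (⟨b₂ * c, hb₁⟩ : B) - b' * ⟨b₂, hb₂⟩ ∈ Ideal.span {π} := by
    rw [← Ideal.Quotient.eq_zero_iff_mem, map_sub, map_mul, sub_eq_zero]
    exact hw
  obtain ⟨z, hz⟩ := Ideal.mem_span_singleton'.1 h3
  have hz' : (z : F) * ϖ = b₂ * c - b' * b₂ := congrArg Subtype.val hz
  have : (c - b') / ϖ = z * b₂⁻¹ := by
    rw [div_eq_iff hϖ0, mul_right_comm, hz']
    field_simp
  rw [this]
  exact Ow.mul_mem _ _ (hB.le _ z.2) hb₂inv

end Fermat.Agent.S33.Cech
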