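/-
S33 / Layer II_p: sections and bounded torsion from `RootData` (KL-A lemmas with `m = p`).
TASK CECH-10.
-/
import Fermat.Agent.S33.Cech.Good.Data

set_option autoImplicit false

namespace Fermat.Agent.S33.Cech

open Fermat.Agent.S18 Fermat.Agent.S18.Abs

variable {F : Type*} [Field F] {Ow : ValuationSubring F} {ϖ : F}

/-- CECH-10a.  Sections `≡ 1` on both charts (`rootGroup_surj` applied to `b = 1`). -/
theorem sec_one_of_rootData {p : ℕ} (hp : p.Prime) (hϖ : IsUnif Ow ϖ) {B₁ B₂ : Subring F}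
    (h₁ : IsChart Ow ϖ B₁) (h₂ : IsChart Ow ϖ B₂) {D : Data p F} (hO : D.O = Ow.toSubring)
    (hB1 : D.B1 = B₁) (hB2 : D.B2 = B₂) (hπ : D.π = ϖ) {h : F} (hh : (h - 1) / ϖ ∈ Ow)
    (r₁ : RootData B₁ ϖ p h) (r₂ : RootData B₂ ϖ p h) : D.Sec h 1 := by
  have hp0 : 0 < p := hp.pos
  have c1 := h₁.chartHyp hϖ p hp0
  have c2 := h₂.chartHyp hϖ p hp0
  have key : ∀ {B : Subring F} (hB : IsChart Ow ϖ B) (_ : RootData B ϖ p h),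
      ∃ a : F, a ^ p * h ∈ B ∧ (a - 1) / ϖ ∈ Ow := by
    intro B hB r
    have c := hB.chartHyp hϖ p hp0
    have := hB.isFractionRing hϖ
    have := hB.noeth
    obtain ⟨a, ha, ha1⟩ := rootGroup_surj hϖ.gaussHyp hp0 c hh (r.divHyp _ hϖ.ne_zero)
      (fun 𝔫 h𝔫 hπ => hB.regAt 𝔫 h𝔫 hπ) (hB.norm hϖ hp0) 1 B.one_mem
    exact ⟨a, mem_rootGroup.mp ha, ha1⟩
  obtain ⟨a1, ha1, ha1'⟩ := key h₁ r₁
  obtain ⟨a2, ha2, ha2'⟩ := key h₂ r₂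
  have d1 : D.Dvd 1 (a1 - 1) := by rw [dvd_iff hO hπ, pow_one]; exact ha1'
  have d2 : D.Dvd 1 (a2 - 1) := by rw [dvd_iff hO hπ, pow_one]; exact ha2'
  refine ⟨a1, a2, by rw [hB1]; exact ha1, by rw [hB2]; exact ha2, d1, d2, ?_⟩
  have : a1 - a2 = (a1 - 1) - (a2 - 1) := by ring
  rw [this]
  exact d1.sub d2

/-- CECH-10b.  Bounded torsion (`exists_torsion_bound_rootGroup`). -/
theorem tors_of_rootData {p : ℕ} (hp : p.Prime) (hϖ : IsUnif Ow ϖ) {A₀ B₁ B₂ : Subring F} {x : F}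
    (hϖA : ϖ ∈ A₀) (hc : IsCover A₀ x B₁ B₂) (h₁ : IsChart Ow ϖ B₁) (h₂ : IsChart Ow ϖ B₂)
    {D : Data p F} (hB1 : D.B1 = B₁) (hB2 : D.B2 = B₂)
    (hB12 : D.B12 = awaySubring B₁ x hc.x_mem) (hπ : D.π = ϖ) {h : F}
    (r₁ : RootData B₁ ϖ p h) : D.Tors h := by
  have hp0 : 0 < p := hp.pos
  have c1 := h₁.chartHyp hϖ p hp0
  have c2 := h₂.chartHyp hϖ p hp0
  have c12 := awaySubring_chartHyp hϖ hc h₁ h₂ p hp0
  obtain ⟨k0, hk0⟩ := exists_torsion_bound_rootGroup hϖ hϖA hc h₁ h₂ hp0 r₁ c1.root c2.root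
    c12.root
  refine ⟨k0, fun y hy k hk => ?_⟩
  rw [hB1, hB2, hπ] at hk ⊢
  rw [hB12] at hy
  obtain ⟨y1, y2, hy1, hy2, hsum⟩ := hk
  have h3 := hk0 y (mem_rootGroup.mpr hy) k (by
    rw [hsum]
    exact AddSubgroup.mem_sup.mpr ⟨y1, mem_rootGroup.mpr hy1, y2, mem_rootGroup.mpr hy2, rfl⟩)
  obtain ⟨z1, hz1, z2, hz2, hz⟩ := AddSubgroup.mem_sup.mp h3
  exact ⟨z1, z2, mem_rootGroup.mp hz1, mem_rootGroup.mp hz2, hz.symm⟩

end Fermat.Agent.S33.Cech
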